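/-
DS-0 (D)+(T): the Hecke operator `T_p` (`p ∤ N`) on `Γ₁(N)`-invariant functions, in the
"diamond family" formulation.  A family `F : ZMod N → (ℍ → ℂ)` with
`F u ∣[k] γ = F (u * γ₁₁)` for all `γ ∈ Γ₀(N)` (think `F u = ⟨u⟩ f`) is sent to
`(T F) u = U_p (F u) + F (p u) ∣[k] diag(p, 1)`, which satisfies the same equivariance.
This is the port of the prelude proof for `Γ₀(N)` with the lower right entry tracked.
-/
import Mathlib
import Fermat.Prelude.Def_ModularForm_HeckeOperator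
import Fermat.Prelude.Thm_ModularForm_heckeT_slash_eq_self_of_mem_Gamma0

set_option autoImplicit false

noncomputable section

open Matrix.SpecialLinearGroup UpperHalfPlane ModularForm
open scoped MatrixGroups ModularForm OnePoint

namespace Fermat.Agent.DS

open P2MW.S_ModularForm_heckeT_slash_eq_self_of_mem_Gamma0.ModularForm.HeckeSlashInvariance

theorem ds0_mapGL_apply (g : SL(2, ℤ)) (i j : Fin 2) :
    (mapGL ℝ g : GL (Fin 2) ℝ) i j = ((g i j : ℤ) : ℝ) := by
  simp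

/-- An element of `SL(2, ℤ)` from its entries. -/
def ds0_mkSL (a b c d : ℤ) (h : a * d - b * c = 1) : SL(2, ℤ) :=
  ⟨!![a, b; c, d], by rw [Matrix.det_fin_two_of]; exact h⟩

@[simp] theorem ds0_mkSL_coe (a b c d : ℤ) (h : a * d - b * c = 1) :
    ((ds0_mkSL a b c d h : SL(2, ℤ)) : Matrix (Fin 2) (Fin 2) ℤ) = !![a, b; c, d] := rfl

section commutation

variable {p : ℕ} (hp : p ≠ 0)
include hp

theorem ds0_heckeMatrix_mul_of_eq (g : SL(2, ℤ)) (j j' : ℕ) (e : ℤ)
    (he : g 0 1 + j * g 1 1 = j' * (g 0 0 + j * g 1 0) + p * e) :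
    ∃ g' : SL(2, ℤ), g' 1 0 = p * g 1 0 ∧ g' 1 1 = g 1 1 - g 1 0 * j' ∧
      heckeMatrix p j * mapGL ℝ g = mapGL ℝ g' * heckeMatrix p j' := by
  have hdet := det_eq g
  refine ⟨ds0_mkSL (g 0 0 + j * g 1 0) e (p * g 1 0) (g 1 1 - g 1 0 * j') ?_, rfl, rfl, ?_⟩
  · linear_combination hdet + (g 1 0) * he
  · ext i j
    fin_cases i <;> fin_cases j <;>
      simp [hp, Matrix.mul_apply, Fin.sum_univ_two]
    all_goals first
      | (have := congrArg (Int.cast : ℤ → ℝ) he; push_cast at this ⊢; linear_combination this)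
      | (have := congrArg (Int.cast : ℤ → ℝ) he; push_cast at this ⊢; linear_combination -this)
      | ring1

theorem ds0_heckeMatrix_mul_of_eq' (g : SL(2, ℤ)) (j : ℕ) (e : ℤ)
    (he : g 0 0 + j * g 1 0 = p * e) :
    ∃ g' : SL(2, ℤ), g' 1 0 = g 1 0 ∧ g' 1 1 = p * g 1 1 ∧
      heckeMatrix p j * mapGL ℝ g = mapGL ℝ g' * heckeDiagMatrix p := by
  have hdet := det_eq g
  refine ⟨ds0_mkSL e (g 0 1 + j * g 1 1) (g 1 0) (p * g 1 1) ?_, rfl, rfl, ?_⟩
  · linear_combination hdet - (g 1 1) * he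
  · ext i j
    fin_cases i <;> fin_cases j <;>
      simp [hp, Matrix.mul_apply, Fin.sum_univ_two]
    all_goals first
      | (have := congrArg (Int.cast : ℤ → ℝ) he; push_cast at this ⊢; linear_combination this)
      | (have := congrArg (Int.cast : ℤ → ℝ) he; push_cast at this ⊢; linear_combination -this)
      | ring1

theorem ds0_heckeDiagMatrix_mul_of_eq (g : SL(2, ℤ)) (j' : ℕ) (e : ℤ)
    (he : g 1 1 = g 1 0 * j' + p * e) :
    ∃ g' : SL(2, ℤ), g' 1 0 = g 1 0 ∧ g' 1 1 = e ∧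
      heckeDiagMatrix p * mapGL ℝ g = mapGL ℝ g' * heckeMatrix p j' := by
  have hdet := det_eq g
  refine ⟨ds0_mkSL (p * g 0 0) (g 0 1 - g 0 0 * j') (g 1 0) e ?_, rfl, rfl, ?_⟩
  · linear_combination hdet - (g 0 0) * he
  · ext i j
    fin_cases i <;> fin_cases j <;>
      simp [hp, Matrix.mul_apply, Fin.sum_univ_two]
    all_goals first
      | (have := congrArg (Int.cast : ℤ → ℝ) he; push_cast at this ⊢; linear_combination this)
      | (have := congrArg (Int.cast : ℤ → ℝ) he; push_cast at this ⊢; linear_combination -this)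
      | ring1

theorem ds0_heckeDiagMatrix_mul_of_eq' (g : SL(2, ℤ)) (e : ℤ) (he : g 1 0 = p * e) :
    ∃ g' : SL(2, ℤ), g' 1 0 = e ∧ g' 1 1 = g 1 1 ∧
      heckeDiagMatrix p * mapGL ℝ g = mapGL ℝ g' * heckeDiagMatrix p := by
  have hdet := det_eq g
  refine ⟨ds0_mkSL (g 0 0) (p * g 0 1) e (g 1 1) ?_, rfl, rfl, ?_⟩
  · linear_combination hdet + (g 0 1) * he
  · ext i j
    fin_cases i <;> fin_cases j <;>
      simp [hp, Matrix.mul_apply, Fin.sum_univ_two]
    all_goals first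
      | (have := congrArg (Int.cast : ℤ → ℝ) he; push_cast at this ⊢; linear_combination this)
      | (have := congrArg (Int.cast : ℤ → ℝ) he; push_cast at this ⊢; linear_combination -this)
      | ring1

end commutation

section heckeT

variable {p : ℕ}

/-- The weight (`p` at `∞`, `1` at finite points) by which the lower right entry gets twisted. -/
def ds0_wt (N p : ℕ) (x : OnePoint (ZMod p)) : ZMod N :=
  x.elim (p : ZMod N) (fun _ ↦ 1)

@[simp] theorem ds0_wt_infty (N : ℕ) : ds0_wt N p ∞ = (p : ZMod N) := rfl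

@[simp] theorem ds0_wt_coe (N : ℕ) (j : ZMod p) : ds0_wt N p (j : OnePoint (ZMod p)) = 1 := rfl

variable [Fact p.Prime]

/-- The tracked version of the prelude's `heckeRep_mul`: the lower right entry of `g'` is
`g₁₁` twisted by the weights of `x` and of its image. -/
theorem ds0_heckeRep_mul {N : ℕ} (hpN : ¬ p ∣ N) (g : SL(2, ℤ)) (hg : (N : ℤ) ∣ g 1 0)
    (x : OnePoint (ZMod p)) :
    ∃ g' : SL(2, ℤ), (N : ℤ) ∣ g' 1 0 ∧
      ds0_wt N p x * ((g' 1 1 : ℤ) : ZMod N) =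
        ((g 1 1 : ℤ) : ZMod N) * ds0_wt N p (redMatrix p g • x) ∧
      heckeRep p x * mapGL ℝ g = mapGL ℝ g' * heckeRep p (redMatrix p g • x) := by
  have hp : p ≠ 0 := (Fact.out : p.Prime).ne_zero
  have hg0 : ((g 1 0 : ℤ) : ZMod N) = 0 := (ZMod.intCast_zmod_eq_zero_iff_dvd _ _).mpr hg
  induction x using OnePoint.rec with
  | infty =>
    rw [OnePoint.smul_infty_eq_ite]
    by_cases hc : ((g 1 0 : ℤ) : ZMod p) = 0
    · rw [if_pos (by simpa [redMatrix_apply_one_zero] using hc), heckeRep_infty]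
      obtain ⟨e, he⟩ := (ZMod.intCast_zmod_eq_zero_iff_dvd _ _).mp hc
      obtain ⟨g', hg', hg'', hmul⟩ := ds0_heckeDiagMatrix_mul_of_eq' hp g e he
      refine ⟨g', ?_, ?_, hmul⟩
      · rw [hg']
        have hcop : IsCoprime (N : ℤ) (p : ℤ) :=
          Nat.isCoprime_iff_coprime.mpr ((Nat.Prime.coprime_iff_not_dvd Fact.out).mpr hpN).symm
        exact hcop.dvd_of_dvd_mul_left (he ▸ hg)
      · rw [hg'', ds0_wt_infty, mul_comm]
    · rw [if_neg (by simpa [redMatrix_apply_one_zero] using hc), heckeRep_infty, heckeRep_coe]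
      set y : ZMod p := redMatrix p g 0 0 / redMatrix p g 1 0 with hy
      obtain ⟨e, he⟩ : (p : ℤ) ∣ g 1 1 - g 1 0 * y.val := by
        rw [← ZMod.intCast_zmod_eq_zero_iff_dvd]
        push_cast
        rw [ZMod.natCast_zmod_val, hy, redMatrix_apply_zero_zero, redMatrix_apply_one_zero,
          mul_div_cancel₀ _ hc, sub_self]
      obtain ⟨g', hg', hg'', hmul⟩ :=
        ds0_heckeDiagMatrix_mul_of_eq hp g y.val e (by linear_combination he)
      refine ⟨g', hg' ▸ hg, ?_, hmul⟩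
      rw [hg'', ds0_wt_infty, ds0_wt_coe, mul_one]
      have := congrArg (Int.cast : ℤ → ZMod N) he
      push_cast at this
      rw [hg0] at this
      linear_combination -this
  | coe j =>
    rw [OnePoint.smul_some_eq_ite]
    by_cases h : redMatrix p g 1 0 * j + redMatrix p g 1 1 = 0
    · rw [if_pos h, heckeRep_infty, heckeRep_coe]
      rw [redMatrix_apply_one_zero, redMatrix_apply_one_one] at h
      obtain ⟨e, he⟩ : (p : ℤ) ∣ g 0 0 + j.val * g 1 0 := by
        rw [← ZMod.intCast_zmod_eq_zero_iff_dvd]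
        push_cast
        rw [ZMod.natCast_zmod_val]
        linear_combination h
      obtain ⟨g', hg', hg'', hmul⟩ := ds0_heckeMatrix_mul_of_eq' hp g j.val e he
      refine ⟨g', hg' ▸ hg, ?_, hmul⟩
      rw [hg'', ds0_wt_infty, ds0_wt_coe, one_mul]
      push_cast
      ring
    · rw [if_neg h, heckeRep_coe, heckeRep_coe]
      set y : ZMod p := (redMatrix p g 0 0 * j + redMatrix p g 0 1) /
        (redMatrix p g 1 0 * j + redMatrix p g 1 1) with hy
      obtain ⟨e, he⟩ : (p : ℤ) ∣ g 0 1 + j.val * g 1 1 - y.val * (g 0 0 + j.val * g 1 0) := by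
        rw [← ZMod.intCast_zmod_eq_zero_iff_dvd]
        push_cast
        rw [ZMod.natCast_zmod_val, ZMod.natCast_zmod_val,
          show ((g 0 0 : ℤ) : ZMod p) + j * ((g 1 0 : ℤ) : ZMod p)
            = redMatrix p g 1 0 * j + redMatrix p g 1 1 by
              rw [redMatrix_apply_one_zero, redMatrix_apply_one_one]; ring,
          hy, div_mul_cancel₀ _ h, redMatrix_apply_zero_zero, redMatrix_apply_zero_one]
        ring
      obtain ⟨g', hg', hg'', hmul⟩ :=
        ds0_heckeMatrix_mul_of_eq hp g j.val y.val e (by linear_combination he)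
      refine ⟨g', hg' ▸ dvd_mul_of_dvd_right hg _, ?_, hmul⟩
      rw [hg'', ds0_wt_coe, ds0_wt_coe, one_mul, mul_one]
      push_cast
      rw [hg0]
      ring

/-- `T_p` on diamond families: `(T F) u = U_p (F u) + F (p u) ∣[k] diag(p, 1)`. -/
def ds0_heckeTFam (N : ℕ) (k : ℤ) (p : ℕ) (F : ZMod N → ℍ → ℂ) (u : ZMod N) : ℍ → ℂ :=
  heckeU k p (F u) + F ((p : ZMod N) * u) ∣[k] heckeDiagMatrix p

theorem ds0_heckeTFam_eq_sum (N : ℕ) (k : ℤ) (F : ZMod N → ℍ → ℂ) (u : ZMod N) :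
    ds0_heckeTFam N k p F u =
      ∑ x : OnePoint (ZMod p), F (u * ds0_wt N p x) ∣[k] heckeRep p x := by
  rw [ds0_heckeTFam, heckeU_eq_sum_zmod, add_comm]
  refine Eq.trans ?_
    (Fintype.sum_option (fun x : OnePoint (ZMod p) ↦ F (u * ds0_wt N p x) ∣[k] heckeRep p x)).symm
  congr 1
  · show _ = F (u * ds0_wt N p ∞) ∣[k] heckeRep p ∞
    rw [ds0_wt_infty, heckeRep_infty, mul_comm]
  · refine Finset.sum_congr rfl fun j _ ↦ ?_
    show _ = F (u * ds0_wt N p (j : OnePoint (ZMod p))) ∣[k] heckeRep p (j : OnePoint (ZMod p))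
    rw [ds0_wt_coe, mul_one, heckeRep_coe]

/-- **`T_p` preserves diamond families** (`p ∤ N`): if `F u ∣[k] γ = F (u γ₁₁)` for all
`γ ∈ Γ₀(N)`, then the same holds for `T F`. -/
theorem ds0_heckeTFam_slash {N : ℕ} (k : ℤ) (hpN : ¬ p ∣ N) (F : ZMod N → ℍ → ℂ)
    (hF : ∀ (u : ZMod N) (γ : SL(2, ℤ)), γ ∈ CongruenceSubgroup.Gamma0 N →
      F u ∣[k] mapGL ℝ γ = F (u * ((γ 1 1 : ℤ) : ZMod N)))
    (u : ZMod N) (γ : SL(2, ℤ)) (hγ : γ ∈ CongruenceSubgroup.Gamma0 N) :
    ds0_heckeTFam N k p F u ∣[k] mapGL ℝ γ =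
      ds0_heckeTFam N k p F (u * ((γ 1 1 : ℤ) : ZMod N)) := by
  have hcN : (N : ℤ) ∣ γ 1 0 :=
    (ZMod.intCast_zmod_eq_zero_iff_dvd _ _).mp (CongruenceSubgroup.Gamma0_mem.mp hγ)
  rw [ds0_heckeTFam_eq_sum, ds0_heckeTFam_eq_sum, SlashAction.sum_slash]
  calc ∑ x : OnePoint (ZMod p), (F (u * ds0_wt N p x) ∣[k] heckeRep p x) ∣[k] mapGL ℝ γ
      = ∑ x : OnePoint (ZMod p), F (u * ((γ 1 1 : ℤ) : ZMod N) * ds0_wt N p (redMatrix p γ • x))
          ∣[k] heckeRep p (redMatrix p γ • x) := by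
        refine Finset.sum_congr rfl fun x _ ↦ ?_
        obtain ⟨g', hg', hwt, hmul⟩ := ds0_heckeRep_mul hpN γ hcN x
        have hg'N : g' ∈ CongruenceSubgroup.Gamma0 N :=
          CongruenceSubgroup.Gamma0_mem.mpr ((ZMod.intCast_zmod_eq_zero_iff_dvd _ _).mpr hg')
        rw [← SlashAction.slash_mul, hmul, SlashAction.slash_mul, hF _ g' hg'N, mul_assoc, hwt,
          mul_assoc]
    _ = ∑ x : OnePoint (ZMod p), F (u * ((γ 1 1 : ℤ) : ZMod N) * ds0_wt N p x)
          ∣[k] heckeRep p x :=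
        Equiv.sum_comp (MulAction.toPerm (redMatrix p γ))
          (fun x ↦ F (u * ((γ 1 1 : ℤ) : ZMod N) * ds0_wt N p x) ∣[k] heckeRep p x)

end heckeT

end Fermat.Agent.DS
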