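/-
DS-0 (D): diamond operators on `Γ₁(N)`-invariant functions, packaged as the "diamond family"
`ds0_diamond N k f : ZMod N → (ℍ → ℂ)`, `u ↦ f ∣[k] γ` for any `γ ∈ Γ₀(N)` with lower right entry
`≡ u mod N` (and `0` if `u` is not a unit).
-/
import Mathlib
import Fermat.Agent.DS.Neben.HeckeGamma1

set_option autoImplicit false

noncomputable section

open Matrix.SpecialLinearGroup UpperHalfPlane ModularForm CongruenceSubgroup
open scoped MatrixGroups ModularForm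

namespace Fermat.Agent.DS

/-- The lower right entry mod `N`. -/
def ds0_d (N : ℕ) (γ : SL(2, ℤ)) : ZMod N := ((γ 1 1 : ℤ) : ZMod N)

theorem ds0_d_mul {N : ℕ} {γ γ' : SL(2, ℤ)} (hγ : γ ∈ Gamma0 N) :
    ds0_d N (γ * γ') = ds0_d N γ * ds0_d N γ' := by
  have h0 : ((γ 1 0 : ℤ) : ZMod N) = 0 := Gamma0_mem.mp hγ
  simp only [ds0_d, Matrix.SpecialLinearGroup.coe_mul, Matrix.mul_apply, Fin.sum_univ_two]
  push_cast
  rw [h0]
  ring

theorem ds0_d_one (N : ℕ) : ds0_d N 1 = 1 := by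
  simp [ds0_d]

theorem ds0_d_isUnit {N : ℕ} {γ : SL(2, ℤ)} (hγ : γ ∈ Gamma0 N) : IsUnit (ds0_d N γ) := by
  have h := ds0_d_mul (N := N) (γ' := γ⁻¹) hγ
  rw [mul_inv_cancel, ds0_d_one] at h
  exact IsUnit.of_mul_eq_one _ h.symm

theorem ds0_mem_Gamma1_iff {N : ℕ} {γ : SL(2, ℤ)} :
    γ ∈ Gamma1 N ↔ γ ∈ Gamma0 N ∧ ds0_d N γ = 1 := by
  rw [Gamma1_mem, Gamma0_mem, ds0_d]
  constructor
  · rintro ⟨-, h11, h10⟩
    exact ⟨h10, h11⟩
  · rintro ⟨h10, h11⟩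
    refine ⟨?_, h11, h10⟩
    have hdet := P2MW.S_ModularForm_heckeT_slash_eq_self_of_mem_Gamma0.ModularForm.HeckeSlashInvariance.det_eq γ
    have := congrArg (Int.cast : ℤ → ZMod N) hdet
    push_cast at this
    rw [h10, h11] at this
    linear_combination this

/-- Every unit of `ZMod N` is the lower right entry of an element of `Γ₀(N)`. -/
theorem ds0_exists_Gamma0 (N : ℕ) {u : ZMod N} (hu : IsUnit u) :
    ∃ γ : SL(2, ℤ), γ ∈ Gamma0 N ∧ ds0_d N γ = u := by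
  obtain ⟨d, rfl⟩ := ZMod.intCast_surjective u
  have hcop : IsCoprime d (N : ℤ) := by
    rw [Int.isCoprime_iff_gcd_eq_one]
    have := (ZMod.isUnit_iff_coprime d.natAbs N).mp (by
      rcases Int.natAbs_eq d with h | h
      · rw [h] at hu; simpa using hu
      · rw [h] at hu
        have : IsUnit (-(((d.natAbs : ℕ) : ℤ) : ZMod N)) := by simpa using hu
        simpa using this.neg)
    simpa [Int.gcd, Nat.Coprime] using this
  obtain ⟨a, b, hab⟩ := hcop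
  refine ⟨ds0_mkSL a (-b) N d (by linear_combination hab), ?_, ?_⟩
  · rw [Gamma0_mem]
    simp [ds0_mkSL_coe]
  · simp [ds0_d, ds0_mkSL_coe]

section family

variable (N : ℕ) (k : ℤ) (f : ℍ → ℂ)

open Classical in
/-- The diamond family of a function: `u ↦ f ∣[k] γ_u`. -/
def ds0_diamond (u : ZMod N) : ℍ → ℂ :=
  if h : ∃ γ : SL(2, ℤ), γ ∈ Gamma0 N ∧ ds0_d N γ = u then f ∣[k] mapGL ℝ h.choose else 0

variable {N k f}

theorem ds0_slash_eq_of_d_eq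
    (hf : ∀ γ : SL(2, ℤ), γ ∈ Gamma1 N → f ∣[k] mapGL ℝ γ = f)
    {γ γ' : SL(2, ℤ)} (hγ : γ ∈ Gamma0 N) (hγ' : γ' ∈ Gamma0 N) (h : ds0_d N γ = ds0_d N γ') :
    f ∣[k] mapGL ℝ γ = f ∣[k] mapGL ℝ γ' := by
  have hδ : γ * γ'⁻¹ ∈ Gamma1 N := by
    rw [ds0_mem_Gamma1_iff]
    refine ⟨mul_mem hγ (inv_mem hγ'), ?_⟩
    have h1 : ds0_d N (γ * γ'⁻¹) * ds0_d N γ' = ds0_d N γ := by
      rw [← ds0_d_mul (mul_mem hγ (inv_mem hγ')), inv_mul_cancel_right]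
    rw [h] at h1
    exact (ds0_d_isUnit hγ').mul_left_injective (by simpa using h1)
  have := hf _ hδ
  calc f ∣[k] mapGL ℝ γ = f ∣[k] mapGL ℝ (γ * γ'⁻¹ * γ') := by rw [inv_mul_cancel_right]
    _ = (f ∣[k] mapGL ℝ (γ * γ'⁻¹)) ∣[k] mapGL ℝ γ' := by
        rw [map_mul, SlashAction.slash_mul]
    _ = f ∣[k] mapGL ℝ γ' := by rw [this]

theorem ds0_diamond_of_mem (hf : ∀ γ : SL(2, ℤ), γ ∈ Gamma1 N → f ∣[k] mapGL ℝ γ = f)
    {γ : SL(2, ℤ)} (hγ : γ ∈ Gamma0 N) :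
    ds0_diamond N k f (ds0_d N γ) = f ∣[k] mapGL ℝ γ := by
  have h : ∃ γ' : SL(2, ℤ), γ' ∈ Gamma0 N ∧ ds0_d N γ' = ds0_d N γ := ⟨γ, hγ, rfl⟩
  rw [ds0_diamond, dif_pos h]
  exact ds0_slash_eq_of_d_eq hf h.choose_spec.1 hγ h.choose_spec.2

theorem ds0_diamond_of_not_isUnit {u : ZMod N} (hu : ¬ IsUnit u) : ds0_diamond N k f u = 0 := by
  rw [ds0_diamond, dif_neg]
  rintro ⟨γ, hγ, rfl⟩
  exact hu (ds0_d_isUnit hγ)

theorem ds0_diamond_one (hf : ∀ γ : SL(2, ℤ), γ ∈ Gamma1 N → f ∣[k] mapGL ℝ γ = f) :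
    ds0_diamond N k f 1 = f := by
  have := ds0_diamond_of_mem hf (one_mem (Gamma0 N))
  rw [ds0_d_one] at this
  rw [this, map_one, SlashAction.slash_one]

/-- The diamond family is a diamond family: `⟨u⟩f ∣[k] γ = ⟨u γ₁₁⟩ f` for `γ ∈ Γ₀(N)`. -/
theorem ds0_diamond_slash (hf : ∀ γ : SL(2, ℤ), γ ∈ Gamma1 N → f ∣[k] mapGL ℝ γ = f)
    (u : ZMod N) (γ : SL(2, ℤ)) (hγ : γ ∈ Gamma0 N) :
    ds0_diamond N k f u ∣[k] mapGL ℝ γ = ds0_diamond N k f (u * ((γ 1 1 : ℤ) : ZMod N)) := by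
  by_cases hu : IsUnit u
  · obtain ⟨γ', hγ', rfl⟩ := ds0_exists_Gamma0 N hu
    rw [ds0_diamond_of_mem hf hγ', ← SlashAction.slash_mul, ← map_mul]
    have : ds0_d N γ' * ((γ 1 1 : ℤ) : ZMod N) = ds0_d N (γ' * γ) := (ds0_d_mul hγ').symm
    rw [this, ds0_diamond_of_mem hf (mul_mem hγ' hγ)]
  · rw [ds0_diamond_of_not_isUnit hu, ds0_diamond_of_not_isUnit, SlashAction.zero_slash]
    intro h
    exact hu (isUnit_of_mul_isUnit_left h)

end family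

end Fermat.Agent.DS
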