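/-
DS-0: function-level regularity and `q`-expansion of `f ∣[k] diag(p, 1)` (i.e. `V_p`), and the
passage from the coefficient recursion to the function identity
`U_p f + c • (f ∣[k] diag(p,1)) = a_p • f`.
-/
import Mathlib
import Fermat.Prelude.Def_ModularForm_HeckeOperator
import Fermat.Prelude.Def_FLTPrelim_Modularity
import Fermat.Prelude.Thm_UpperHalfPlane_qCoeff_heckeT
import Fermat.Prelude.Thm_ModularForm_mdifferentiable_heckeT
import Fermat.Prelude.Thm_ModularForm_mdifferentiable_heckeU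
import Fermat.Prelude.Thm_ModularForm_periodic_heckeT_comp_ofComplex
import Fermat.Prelude.Thm_ModularForm_periodic_heckeU_comp_ofComplex
import Fermat.Prelude.Thm_ModularForm_isBoundedAtImInfty_heckeT
import Fermat.Prelude.Thm_ModularForm_isBoundedAtImInfty_heckeU

set_option autoImplicit false

noncomputable section

open Complex Function Filter ModularForm ModularFormClass
open UpperHalfPlane hiding I
open scoped Real MatrixGroups ModularForm Manifold Topology

namespace Fermat.Agent.DS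

section bare

variable {f : ℍ → ℂ} (k : ℤ) {p : ℕ}

theorem ds0_diag_eq_sub (f : ℍ → ℂ) (k : ℤ) (p : ℕ) :
    f ∣[k] heckeDiagMatrix p = heckeT k p f - heckeU k p f := by
  rw [heckeT_eq_heckeU_add, add_sub_cancel_left]

theorem ds0_diag_periodic (hper : Periodic (f ∘ ofComplex) 1) (p : ℕ) :
    Periodic ((f ∣[k] heckeDiagMatrix p) ∘ ofComplex) 1 := by
  rw [ds0_diag_eq_sub]
  exact (ModularForm.periodic_heckeT_comp_ofComplex hper k p).sub
    (ModularForm.periodic_heckeU_comp_ofComplex hper k p)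

theorem ds0_diag_mdiff (hhol : MDiff f) (p : ℕ) : MDiff (f ∣[k] heckeDiagMatrix p) := by
  rw [ds0_diag_eq_sub]
  exact (ModularForm.mdifferentiable_heckeT hhol k p).sub (ModularForm.mdifferentiable_heckeU hhol k p)

theorem ds0_diag_bdd (hbdd : IsBoundedAtImInfty f) (p : ℕ) :
    IsBoundedAtImInfty (f ∣[k] heckeDiagMatrix p) := by
  rw [ds0_diag_eq_sub, sub_eq_add_neg]
  exact (ModularForm.isBoundedAtImInfty_heckeT hbdd k p).add
    (ModularForm.isBoundedAtImInfty_heckeU hbdd k p).neg_left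

variable (hp : p ≠ 0) (hper : Periodic (f ∘ ofComplex) 1) (hhol : MDiff f)
  (hbdd : IsBoundedAtImInfty f)

include hp hper hhol hbdd in
theorem ds0_hasSum_diag (τ : ℍ) :
    HasSum (fun n : ℕ ↦ (if p ∣ n then (p : ℂ) ^ (k - 1) * qCoeff f (n / p) else 0) •
      Periodic.qParam 1 τ ^ n) ((f ∣[k] heckeDiagMatrix p) τ) := by
  rw [slash_heckeDiagMatrix_apply k hp]
  convert P2MW.S_UpperHalfPlane_qCoeff_heckeT.M4cP1W2.hasSum_diag hp hper hhol hbdd k τ using 1
  funext n
  split_ifs <;> simp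

include hp hper hhol hbdd in
/-- `q`-expansion of `V_p`: `a_n (f ∣[k] diag(p,1)) = [p ∣ n] p^(k-1) a_{n/p}(f)`. -/
theorem ds0_qCoeff_diag (n : ℕ) :
    qCoeff (f ∣[k] heckeDiagMatrix p) n =
      if p ∣ n then (p : ℂ) ^ (k - 1) * qCoeff f (n / p) else 0 :=
  (P2MW.S_UpperHalfPlane_qCoeff_heckeT.M4cP1W2.qExpansion_coeff_unique'
    (ds0_diag_mdiff k hhol p).continuous
    (analyticAt_cuspFunction_zero one_pos (ds0_diag_periodic k hper p)
      (ds0_diag_mdiff k hhol p) (ds0_diag_bdd k hbdd p))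
    (ds0_hasSum_diag k hp hper hhol hbdd) n).symm

include hp hper hhol hbdd in
/-- From the coefficient recursion to the function identity. -/
theorem ds0_eigen_of_rec (c ap : ℂ)
    (hrec : ∀ n : ℕ, qCoeff f (p * n) +
      c * (if p ∣ n then (p : ℂ) ^ (k - 1) * qCoeff f (n / p) else 0) = ap * qCoeff f n) :
    heckeU k p f + c • (f ∣[k] heckeDiagMatrix p) = ap • f := by
  funext τ
  have h1 := P2MW.S_UpperHalfPlane_qCoeff_heckeT.M4cP1W2.hasSum_heckeU hp hper hhol hbdd k τ
  have h2 := (ds0_hasSum_diag k hp hper hhol hbdd τ).mul_left c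
  have h3 : HasSum (fun n : ℕ ↦ ap * (qCoeff f n • Periodic.qParam 1 τ ^ n)) (ap * f τ) :=
    (hasSum_qExpansion one_pos hper hhol hbdd τ).mul_left ap
  have h4 := h1.add h2
  have : (fun n : ℕ ↦ coeffHeckeU p (qCoeff f) n • Periodic.qParam 1 τ ^ n +
      c * ((if p ∣ n then (p : ℂ) ^ (k - 1) * qCoeff f (n / p) else 0) •
        Periodic.qParam 1 τ ^ n)) =
      fun n : ℕ ↦ ap * (qCoeff f n • Periodic.qParam 1 τ ^ n) := by
    funext n
    have := hrec n
    simp only [coeffHeckeU_apply, smul_eq_mul, mul_comm n p]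
    linear_combination (Periodic.qParam 1 τ ^ n) * this
  rw [this] at h4
  simpa using h4.unique h3

end bare

end Fermat.Agent.DS
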