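/-
DS-0 (N): the NEBENTYPUS LEMMA.  A cusp form on `Γ₁(N)` whose `q`-coefficients satisfy the
`ε`-twisted Hecke recursions at all primes `p ∤ N` (and `a₁ = 1`) has nebentypus `ε`:
`f ∣[k] γ = ε(d_γ) • f` for all `γ ∈ Γ₀(N)`.

Proof: `T_p f = U_p f + (⟨p⟩f) ∣ diag(p,1)` has level `Γ₁(N)`, and the recursion says
`U_p f + ε(p) f ∣ diag(p,1) = a_p f`; so `(⟨p⟩f - ε(p) f) ∣ diag(p,1)` is a modular form on `Γ₁(N)`
whose `q`-expansion starts in degree `≥ p`.  For `p` above the Sturm bound it vanishes, whence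
`⟨p⟩ f = ε(p) f`; Dirichlet's theorem supplies such a prime in every class mod `N`.
-/
import Mathlib
import Fermat.Agent.DS.Neben.Diamond
import Fermat.Agent.DS.Neben.QExpDiag
import Fermat.Prelude.Thm_ModularForm_sturm_bound_of_isArithmetic
import Fermat.Prelude.Thm_ModularFormClass_isBoundedAt_heckeT
import Fermat.Prelude.Thm_ModularFormClass_isBoundedAt_heckeU

set_option autoImplicit false

noncomputable section

open Complex Function Filter ModularForm ModularFormClass CongruenceSubgroup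
open Matrix.SpecialLinearGroup
open UpperHalfPlane hiding I
open scoped Real MatrixGroups ModularForm Manifold Topology

namespace Fermat.Agent.DS

section normal

variable {N : ℕ}

theorem ds0_conj_mem_Gamma1 {γ δ : SL(2, ℤ)} (hγ : γ ∈ Gamma0 N) (hδ : δ ∈ Gamma1 N) :
    γ * δ * γ⁻¹ ∈ Gamma1 N := by
  rw [ds0_mem_Gamma1_iff] at hδ ⊢
  have hγδ : γ * δ ∈ Gamma0 N := mul_mem hγ hδ.1
  refine ⟨mul_mem hγδ (inv_mem hγ), ?_⟩
  rw [ds0_d_mul hγδ, ds0_d_mul hγ, hδ.2, mul_one, ← ds0_d_mul hγ, mul_inv_cancel, ds0_d_one]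

open ConjAct Pointwise in
theorem ds0_conj_Gamma1 {γ : SL(2, ℤ)} (hγ : γ ∈ Gamma0 N) :
    (Gamma1 N : Subgroup (GL (Fin 2) ℝ)) =
      toConjAct (mapGL ℝ γ)⁻¹ • (Gamma1 N : Subgroup (GL (Fin 2) ℝ)) := by
  ext x
  rw [Subgroup.mem_pointwise_smul_iff_inv_smul_mem, ← map_inv, inv_inv, ConjAct.toConjAct_smul]
  constructor
  · rintro ⟨δ, hδ, rfl⟩
    refine ⟨γ * δ * γ⁻¹, ds0_conj_mem_Gamma1 hγ hδ, ?_⟩
    simp [map_mul, map_inv]
  · rintro ⟨δ, hδ, hx⟩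
    refine ⟨γ⁻¹ * δ * γ, ?_, ?_⟩
    · have := ds0_conj_mem_Gamma1 (inv_mem hγ) hδ
      rwa [inv_inv] at this
    · simp only [map_mul, map_inv]
      rw [hx]
      group

end normal

section diamondForm

variable {N : ℕ} {k : ℤ}

/-- `f ∣[k] γ` as a cusp form on `Γ₁(N)`, for `γ ∈ Γ₀(N)`. -/
def ds0_diamondForm (f : CuspForm (Gamma1 N) k) (γ : SL(2, ℤ)) (hγ : γ ∈ Gamma0 N) :
    CuspForm (Gamma1 N) k :=
  (CuspForm.translate f (mapGL ℝ γ)).mcast rfl (ds0_conj_Gamma1 hγ)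

theorem ds0_diamondForm_coe (f : CuspForm (Gamma1 N) k) (γ : SL(2, ℤ)) (hγ : γ ∈ Gamma0 N) :
    ⇑(ds0_diamondForm f γ hγ) = ⇑f ∣[k] mapGL ℝ γ := rfl

theorem ds0_slash_Gamma1 (f : CuspForm (Gamma1 N) k) (γ : SL(2, ℤ)) (hγ : γ ∈ Gamma1 N) :
    ⇑f ∣[k] mapGL ℝ γ = ⇑f :=
  SlashInvariantFormClass.slash_action_eq f _ (Subgroup.mem_map_of_mem _ hγ)

end diamondForm

section core

variable {N : ℕ} [NeZero N] {k : ℤ}

/-- The Sturm bound for `Γ₁(N)` in weight `k`. -/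
def ds0_sturm (N : ℕ) (k : ℤ) : ℕ :=
  (k * ((Gamma1 N : Subgroup (GL (Fin 2) ℝ)).relIndex 𝒮ℒ)).toNat / 12

omit [NeZero N] in
theorem ds0_isUnit_natCast {p : ℕ} (hp : p.Prime) (hpN : ¬ p ∣ N) : IsUnit ((p : ℕ) : ZMod N) :=
  (ZMod.isUnit_iff_coprime p N).mpr ((Nat.Prime.coprime_iff_not_dvd hp).mpr hpN)

/-- **Core step.** If `U_p f + c • V_p f = a_p • f` for a prime `p ∤ N` above the Sturm bound,
then `⟨p⟩ f = c • f`. -/
theorem ds0_diamond_eq_smul (f : CuspForm (Gamma1 N) k) {p : ℕ} (hp : p.Prime) (hpN : ¬ p ∣ N)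
    (hpB : ds0_sturm N k < p) (c ap : ℂ)
    (hE : heckeU k p ⇑f + c • (⇑f ∣[k] heckeDiagMatrix p) = ap • ⇑f) :
    ds0_diamond N k ⇑f (p : ZMod N) = c • ⇑f := by
  have : Fact p.Prime := ⟨hp⟩
  have hp0 : p ≠ 0 := hp.ne_zero
  have hf := ds0_slash_Gamma1 f
  have h1 : (1 : ℝ) ∈ (Gamma1 N : Subgroup (GL (Fin 2) ℝ)).strictPeriods := by simp
  obtain ⟨γp, hγp, hdp⟩ := ds0_exists_Gamma0 N (ds0_isUnit_natCast hp hpN)
  have hFp : ds0_diamond N k ⇑f (p : ZMod N) = ⇑f ∣[k] mapGL ℝ γp := by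
    rw [← hdp, ds0_diamond_of_mem hf hγp]
  -- the cusp form `G = ⟨p⟩f - c f`
  set G : CuspForm (Gamma1 N) k := ds0_diamondForm f γp hγp - c • f with hG
  have hGcoe : ⇑G = ds0_diamond N k ⇑f (p : ZMod N) - c • ⇑f := by
    rw [hFp]; rfl
  -- `H = G ∣ diag(p,1) = T_p f - a_p f`
  have hH : ⇑G ∣[k] heckeDiagMatrix p =
      ds0_heckeTFam N k p (ds0_diamond N k ⇑f) 1 - ap • ⇑f := by
    rw [hGcoe, sub_eq_add_neg, SlashAction.add_slash, SlashAction.neg_slash,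
      ModularForm.smul_slash, σ_heckeDiagMatrix, ContinuousAlgEquiv.refl_apply, ds0_heckeTFam,
      mul_one, ds0_diamond_one hf, ← hE]
    abel
  -- slash invariance of `H`
  have hHinv : ∀ γ ∈ (Gamma1 N : Subgroup (GL (Fin 2) ℝ)),
      (⇑G ∣[k] heckeDiagMatrix p) ∣[k] γ = ⇑G ∣[k] heckeDiagMatrix p := by
    rintro _ ⟨δ, hδ, rfl⟩
    have hδ' := ds0_mem_Gamma1_iff.mp hδ
    rw [hH, sub_eq_add_neg, SlashAction.add_slash, SlashAction.neg_slash]
    congr 1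
    · have := ds0_heckeTFam_slash (p := p) k hpN (ds0_diamond N k ⇑f) (ds0_diamond_slash hf) 1 δ hδ'.1
      rw [one_mul] at this
      rw [show ((δ 1 1 : ℤ) : ZMod N) = 1 from hδ'.2] at this
      exact this
    · congr 1
      exact ds0_slash_Gamma1 (ap • f) δ hδ
  -- the modular form `H`
  let Hform : ModularForm (Gamma1 N) k :=
    { toFun := ⇑G ∣[k] heckeDiagMatrix p
      slash_action_eq' := hHinv
      holo' := ds0_diag_mdiff k (holo G) p
      bdd_at_cusps' := fun {c} hc ↦ by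
        rw [ds0_diag_eq_sub, sub_eq_add_neg, ← heckeU_neg]
        exact (ModularFormClass.isBoundedAt_heckeT G p hc).add
          (ModularFormClass.isBoundedAt_heckeU (-G) p hc) }
  have hHform : Hform = 0 := by
    refine ModularForm.sturm_bound_of_isArithmetic h1 ?_
    refine lt_of_lt_of_le (b := ((p : ℕ) : ℕ∞)) (by exact_mod_cast hpB) ?_
    refine PowerSeries.nat_le_order _ _ fun n hn ↦ ?_
    have : Fact (IsCusp OnePoint.infty (Gamma1 N : Subgroup (GL (Fin 2) ℝ))) :=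
      ⟨Subgroup.isCusp_of_mem_strictPeriods one_pos h1⟩
    have := ds0_qCoeff_diag k hp0 (SlashInvariantFormClass.periodic_comp_ofComplex G h1)
      (holo G) (bdd_at_infty G) n
    rw [qCoeff] at this
    show (qExpansion 1 (⇑G ∣[k] heckeDiagMatrix p)).coeff n = 0
    rw [this]
    split_ifs with hdvd
    · have hn0 : n = 0 := Nat.eq_zero_of_dvd_of_lt hdvd hn
      subst hn0
      rw [Nat.zero_div, qCoeff, CuspFormClass.qExpansion_coeff_zero G one_pos h1, mul_zero]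
    · rfl
  have hH0 : ⇑G ∣[k] heckeDiagMatrix p = 0 := congrArg (fun F : ModularForm (Gamma1 N) k ↦ ⇑F) hHform
  have hG0 : ⇑G = 0 := by
    have := congrArg (fun F ↦ F ∣[k] (heckeDiagMatrix p)⁻¹) hH0
    simpa [← SlashAction.slash_mul] using this
  rw [hGcoe] at hG0
  exact sub_eq_zero.mp hG0

end core

section main

variable {N : ℕ} [NeZero N] (ε : DirichletCharacter ℂ N) (f : CuspForm (Gamma1 N) 1)

omit [NeZero N] in
/-- The function identity `U_p f + ε(p) V_p f = a_p f` from the S48 recursion hypothesis. -/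
theorem ds0_eigen_of_hT
    (hT : ∀ p : ℕ, p.Prime → ¬ p ∣ N → ∀ n : ℕ,
      qCoeff f (p * n) + ε (p : ZMod N) * (if p ∣ n then qCoeff f (n / p) else 0) =
        qCoeff f p * qCoeff f n)
    {p : ℕ} (hp : p.Prime) (hpN : ¬ p ∣ N) :
    heckeU 1 p ⇑f + ε (p : ZMod N) • (⇑f ∣[(1 : ℤ)] heckeDiagMatrix p) = qCoeff f p • ⇑f := by
  have h1 : (1 : ℝ) ∈ (Gamma1 N : Subgroup (GL (Fin 2) ℝ)).strictPeriods := by simp
  have : Fact (IsCusp OnePoint.infty (Gamma1 N : Subgroup (GL (Fin 2) ℝ))) :=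
    ⟨Subgroup.isCusp_of_mem_strictPeriods one_pos h1⟩
  refine ds0_eigen_of_rec 1 hp.ne_zero (SlashInvariantFormClass.periodic_comp_ofComplex f h1)
    (holo f) (bdd_at_infty f) _ _ fun n ↦ ?_
  have := hT p hp hpN n
  simpa using this

/-- `⟨p⟩ f = ε(p) f` for all large primes. -/
theorem ds0_diamond_prime
    (hT : ∀ p : ℕ, p.Prime → ¬ p ∣ N → ∀ n : ℕ,
      qCoeff f (p * n) + ε (p : ZMod N) * (if p ∣ n then qCoeff f (n / p) else 0) =
        qCoeff f p * qCoeff f n)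
    {p : ℕ} (hp : p.Prime) (hpN : ¬ p ∣ N) (hpB : ds0_sturm N 1 < p) :
    ds0_diamond N 1 ⇑f (p : ZMod N) = ε (p : ZMod N) • ⇑f :=
  ds0_diamond_eq_smul f hp hpN hpB _ _ (ds0_eigen_of_hT ε f hT hp hpN)

/-- **The nebentypus lemma** (DS-0 (N)): under the recursion hypothesis `hT` of S48, the form
`f` has nebentypus `ε`, i.e. `f ∣[1] γ = ε(d_γ) f` for all `γ ∈ Γ₀(N)`. -/
theorem ds0_nebentypus
    (hT : ∀ p : ℕ, p.Prime → ¬ p ∣ N → ∀ n : ℕ,
      qCoeff f (p * n) + ε (p : ZMod N) * (if p ∣ n then qCoeff f (n / p) else 0) =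
        qCoeff f p * qCoeff f n)
    (γ : SL(2, ℤ)) (hγ : γ ∈ Gamma0 N) :
    ⇑f ∣[(1 : ℤ)] mapGL ℝ γ = ε (((γ 1 1 : ℤ)) : ZMod N) • ⇑f := by
  obtain ⟨p, hpgt, hp, hpeq⟩ :=
    Nat.forall_exists_prime_gt_and_eq_mod (ds0_d_isUnit hγ) (max (ds0_sturm N 1) N)
  have hpN : ¬ p ∣ N :=
    Nat.not_dvd_of_pos_of_lt (NeZero.pos N) (lt_of_le_of_lt (le_max_right _ _) hpgt)
  have hpB : ds0_sturm N 1 < p := lt_of_le_of_lt (le_max_left _ _) hpgt
  have h := ds0_diamond_prime ε f hT hp hpN hpB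
  rw [hpeq, ds0_diamond_of_mem (ds0_slash_Gamma1 f) hγ] at h
  exact h

/-- `ε(-1) = -1` (the character is odd), using `a₁ = 1`. -/
theorem ds0_eps_neg_one (hf₁ : qCoeff f 1 = 1)
    (hT : ∀ p : ℕ, p.Prime → ¬ p ∣ N → ∀ n : ℕ,
      qCoeff f (p * n) + ε (p : ZMod N) * (if p ∣ n then qCoeff f (n / p) else 0) =
        qCoeff f p * qCoeff f n) :
    ε (-1) = -1 := by
  have hmem : (-1 : SL(2, ℤ)) ∈ Gamma0 N := by
    rw [Gamma0_mem]; simp
  have h := ds0_nebentypus ε f hT (-1) hmem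
  have hneg : ⇑f ∣[(1 : ℤ)] mapGL ℝ (-1 : SL(2, ℤ)) = -⇑f := by
    funext τ
    have h := ModularForm.SL_slash_apply (f := ⇑f) (k := 1) (-1 : SL(2, ℤ)) τ
    rw [ModularForm.SL_slash] at h
    have e : ((-1 : SL(2, ℤ)) : GL (Fin 2) ℝ) = mapGL ℝ (-1 : SL(2, ℤ)) := rfl
    rw [e] at h
    rw [h]
    simp [UpperHalfPlane.denom]
  rw [hneg] at h
  have hd : (((-1 : SL(2, ℤ)) 1 1 : ℤ) : ZMod N) = -1 := by simp
  rw [hd] at h
  -- `f ≠ 0`
  have hne : ∃ τ : ℍ, f τ ≠ 0 := by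
    by_contra hcon
    simp only [not_exists, not_not] at hcon
    have hz : (⇑f : ℍ → ℂ) = 0 := funext hcon
    have : qCoeff f 1 = 0 := by
      rw [qCoeff, hz, qExpansion_zero]; simp
    rw [hf₁] at this
    exact one_ne_zero this
  obtain ⟨τ, hτ⟩ := hne
  have := congrFun h τ
  simp only [Pi.neg_apply, Pi.smul_apply, smul_eq_mul] at this
  have h2 : (ε (-1) + 1) * f τ = 0 := by linear_combination -this
  rcases mul_eq_zero.mp h2 with h3 | h3
  · linear_combination h3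
  · exact absurd h3 hτ

end main

end Fermat.Agent.DS
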