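/-
DS-0: the seam `ds_Seam0` of `DS/Seams.lean` (nebentypus lemma), proved.
-/
import Mathlib
import Fermat.Agent.DS.Seams
import Fermat.Agent.DS.Neben.Nebentypus

set_option autoImplicit false

noncomputable section

open CongruenceSubgroup ModularFormClass Matrix.SpecialLinearGroup
open scoped MatrixGroups ModularForm

namespace Fermat.Agent.DS

/-- **DS-0**: the nebentypus seam. -/
theorem ds0_seam0 : ds_Seam0 := by
  intro N _ ε f hW
  refine ⟨fun γ hγ ↦ ?_, ds0_eps_neg_one ε f hW.one hW.hecke⟩
  rw [ModularForm.SL_slash]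
  exact ds0_nebentypus ε f hW.hecke γ hγ

end Fermat.Agent.DS
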