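/-
DS-0 (M): formal consequences of the Hecke recursion hypothesis of S48
(`a (p n) + ε p · [p ∣ n] a (n / p) = a p · a n` for all primes `p ∤ N`), for an arbitrary
arithmetic function `a : ℕ → ℂ` (no modular forms here).
-/
import Mathlib

set_option autoImplicit false

namespace Fermat.Agent.DS

/-- The Hecke recursion hypothesis of S48, for an abstract coefficient function. -/
def ds0_HeckeRec (N : ℕ) (ε : DirichletCharacter ℂ N) (a : ℕ → ℂ) : Prop :=
  ∀ p : ℕ, p.Prime → ¬ p ∣ N → ∀ n : ℕ,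
    a (p * n) + ε (p : ZMod N) * (if p ∣ n then a (n / p) else 0) = a p * a n

variable {N : ℕ} {ε : DirichletCharacter ℂ N} {a : ℕ → ℂ}

theorem ds0_coeff_mul_of_not_dvd (hT : ds0_HeckeRec N ε a) {p : ℕ} (hp : p.Prime) (hpN : ¬ p ∣ N)
    {n : ℕ} (hn : ¬ p ∣ n) : a (p * n) = a p * a n := by
  have h := hT p hp hpN n
  rwa [if_neg hn, mul_zero, add_zero] at h

theorem ds0_coeff_mul_of_dvd (hT : ds0_HeckeRec N ε a) {p : ℕ} (hp : p.Prime) (hpN : ¬ p ∣ N)
    (n : ℕ) : a (p * (p * n)) = a p * a (p * n) - ε (p : ZMod N) * a n := by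
  have h := hT p hp hpN (p * n)
  rw [if_pos (dvd_mul_right p n), Nat.mul_div_cancel_left n hp.pos] at h
  linear_combination h

/-- `a (p^(r+2)) = a p · a (p^(r+1)) − ε p · a (p^r)` for primes `p ∤ N`. -/
theorem ds0_coeff_prime_pow (hT : ds0_HeckeRec N ε a) {p : ℕ} (hp : p.Prime) (hpN : ¬ p ∣ N)
    (r : ℕ) : a (p ^ (r + 2)) = a p * a (p ^ (r + 1)) - ε (p : ZMod N) * a (p ^ r) := by
  have h := ds0_coeff_mul_of_dvd hT hp hpN (p ^ r)
  rw [← pow_succ', ← pow_succ'] at h
  exact h

/-- `a (p^r · n) = a (p^r) · a n` for primes `p ∤ N`, `p ∤ n`. -/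
theorem ds0_coeff_prime_pow_mul (h1 : a 1 = 1) (hT : ds0_HeckeRec N ε a) {p : ℕ} (hp : p.Prime)
    (hpN : ¬ p ∣ N) {n : ℕ} (hn : ¬ p ∣ n) (r : ℕ) : a (p ^ r * n) = a (p ^ r) * a n := by
  induction r using Nat.strong_induction_on with
  | _ r ih =>
    match r, ih with
    | 0, _ => simp [h1]
    | 1, _ => simpa using ds0_coeff_mul_of_not_dvd hT hp hpN hn
    | (r + 2), ih =>
      have e1 : p ^ (r + 2) * n = p * (p * (p ^ r * n)) := by ring
      have e2 : p * (p ^ r * n) = p ^ (r + 1) * n := by ring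
      rw [e1, ds0_coeff_mul_of_dvd hT hp hpN, e2, ih (r + 1) (by omega), ih r (by omega),
        ds0_coeff_prime_pow hT hp hpN r]
      ring

/-- Multiplicativity: `a (m n) = a m · a n` for `m` coprime to both `N` and `n`. -/
theorem ds0_coeff_mul_coprime (h1 : a 1 = 1) (hT : ds0_HeckeRec N ε a) (m n : ℕ)
    (hmN : m.Coprime N) (hmn : m.Coprime n) : a (m * n) = a m * a n := by
  induction m using Nat.recOnPosPrimePosCoprime generalizing n with
  | zero =>
    have hN : N = 1 := by simpa using hmN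
    have hn : n = 1 := by simpa using hmn
    subst hn
    simp [h1]
  | one => simp [h1]
  | prime_pow p r hp hr =>
    have hpN : ¬ p ∣ N := fun h => by
      have := Nat.Coprime.coprime_dvd_left (dvd_pow_self p hr.ne') hmN
      exact hp.one_lt.ne' (Nat.Coprime.eq_one_of_dvd this h)
    have hpn : ¬ p ∣ n := fun h => by
      have := Nat.Coprime.coprime_dvd_left (dvd_pow_self p hr.ne') hmn
      exact hp.one_lt.ne' (Nat.Coprime.eq_one_of_dvd this h)
    exact ds0_coeff_prime_pow_mul h1 hT hp hpN hpn r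
  | coprime x y hx hy hxy ihx ihy =>
    have hxN : x.Coprime N := Nat.Coprime.coprime_dvd_left (dvd_mul_right x y) hmN
    have hyN : y.Coprime N := Nat.Coprime.coprime_dvd_left (dvd_mul_left y x) hmN
    have hxn : x.Coprime n := Nat.Coprime.coprime_dvd_left (dvd_mul_right x y) hmn
    have hyn : y.Coprime n := Nat.Coprime.coprime_dvd_left (dvd_mul_left y x) hmn
    rw [mul_assoc, ihx (y * n) hxN (Nat.Coprime.mul_right hxy hxn), ihy n hyN hyn,
      ihx y hxN hxy]
    ring

/-- The coefficient at a product of an `N`-coprime number `m` and an arbitrary `n`, when `n` is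
coprime to `m`; restated with `n` on the left. -/
theorem ds0_coeff_mul_coprime' (h1 : a 1 = 1) (hT : ds0_HeckeRec N ε a) (m n : ℕ)
    (hmN : m.Coprime N) (hmn : m.Coprime n) : a (n * m) = a n * a m := by
  rw [mul_comm n m, ds0_coeff_mul_coprime h1 hT m n hmN hmn, mul_comm]

end Fermat.Agent.DS
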